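import Mathlib.RingTheory.Polynomial.UniqueFactorization
import Mathlib.RingTheory.Polynomial.Basic
import Mathlib.RingTheory.Adjoin.Polynomial.Basic
import Mathlib.RingTheory.DiscreteValuationRing.Basic
import Mathlib.RingTheory.PrincipalIdealDomain
import Mathlib.RingTheory.Polynomial.Quotient
import Mathlib.RingTheory.Algebraic.Basic
import Mathlib.RingTheory.Localization.FractionRing
import Mathlib.Algebra.Field.Subfield.Basic

/-!
# A2 / A3 (δ-count), producer side, part 6 (helper492): the ring `Λ = R[x] ⊆ F`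

`R` a discrete valuation ring with uniformiser `w`, `F ⊇ R` a field, `x ∈ F` transcendental
over `R`, `Λ := Algebra.adjoin R {x} ⊆ F` (the base ring of the charts of `S18.H138`).

* `adjoinEquiv hx : R[X] ≃ₐ[R] Λ`;
* `uniqueFactorizationMonoid_adjoin`, `prime_algebraMap_adjoin` (`w` is a prime element of `Λ`),
  `isPrincipalIdealRing_quotient_adjoin` (`Λ / w` is a PID),
  `not_dvd_aeval_of_coeff` (Gauss: a polynomial with a coefficient prime to `w` is prime to `w`);
* `dvd_algebraMap_iff` : the prime elements of `Λ` dividing a nonzero constant are the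
  associates of `w`.

Mathlib only.
-/

set_option autoImplicit false

namespace Fermat.Agent.A2.A3.H492

open Polynomial

variable {R : Type*} [CommRing R] {F : Type*} [Field F] [Algebra R F] {x : F}

/-- `R[X] ≃ R[x]` for a transcendental `x`. -/
noncomputable def adjoinEquiv (hx : Transcendental R x) :
    R[X] ≃ₐ[R] Algebra.adjoin R ({x} : Set F) :=
  (AlgEquiv.ofInjective (aeval (R := R) x)
    ((injective_iff_map_eq_zero _).2 (transcendental_iff.1 hx))).trans
      (Subalgebra.equivOfEq _ _ (Algebra.adjoin_singleton_eq_range_aeval R x).symm)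

theorem coe_adjoinEquiv (hx : Transcendental R x) (p : R[X]) :
    ((adjoinEquiv hx p : Algebra.adjoin R ({x} : Set F)) : F) = aeval x p := rfl

theorem adjoinEquiv_C (hx : Transcendental R x) (r : R) :
    adjoinEquiv hx (C r) = algebraMap R (Algebra.adjoin R ({x} : Set F)) r := by
  apply Subtype.ext
  rw [coe_adjoinEquiv, aeval_C]
  rfl

theorem uniqueFactorizationMonoid_adjoin [IsDomain R] [UniqueFactorizationMonoid R]
    (hx : Transcendental R x) :
    UniqueFactorizationMonoid (Algebra.adjoin R ({x} : Set F)) :=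
  (adjoinEquiv hx).toMulEquiv.uniqueFactorizationMonoid inferInstance

/-- A prime element of `R` is a prime element of `R[x]`. -/
theorem prime_algebraMap_adjoin [IsDomain R] (hx : Transcendental R x) {w : R} (hw : Prime w) :
    Prime (algebraMap R (Algebra.adjoin R ({x} : Set F)) w) := by
  rw [← adjoinEquiv_C hx]
  exact (MulEquiv.prime_iff (adjoinEquiv hx).toMulEquiv).2 (prime_C_iff.2 hw)

/-- Divisibility by a constant in `R[x]` is coefficientwise. -/
theorem algebraMap_dvd_adjoinEquiv_iff (hx : Transcendental R x) (w : R) (p : R[X]) :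
    algebraMap R (Algebra.adjoin R ({x} : Set F)) w ∣ adjoinEquiv hx p ↔ ∀ i, w ∣ p.coeff i := by
  rw [← adjoinEquiv_C hx, ← C_dvd_iff_dvd_coeff]
  exact map_dvd_iff (adjoinEquiv hx)

/-- **Gauss.**  A polynomial in `x` one of whose coefficients is prime to `w` is prime to `w`
in `R[x]`. -/
theorem not_dvd_aeval_of_coeff (hx : Transcendental R x) (w : R) (p : R[X])
    (hp : ∃ i, ¬ w ∣ p.coeff i) :
    ¬ algebraMap R (Algebra.adjoin R ({x} : Set F)) w ∣ adjoinEquiv hx p := by
  rw [algebraMap_dvd_adjoinEquiv_iff]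
  obtain ⟨i, hi⟩ := hp
  exact fun h => hi (h i)

/-- `R[x] / w` is a principal ideal ring when `R / w` is a field. -/
theorem isPrincipalIdealRing_quotient_adjoin (hx : Transcendental R x) {w : R}
    (hw : (Ideal.span {w}).IsMaximal) :
    IsPrincipalIdealRing (Algebra.adjoin R ({x} : Set F) ⧸
      Ideal.span {algebraMap R (Algebra.adjoin R ({x} : Set F)) w}) := by
  let _ : Field (R ⧸ Ideal.span {w}) := Ideal.Quotient.field _
  set Λ := Algebra.adjoin R ({x} : Set F) with hΛ
  set I : Ideal Λ := Ideal.span {algebraMap R Λ w} with hI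
  -- the constants
  let f : R ⧸ Ideal.span {w} →+* Λ ⧸ I :=
    Ideal.Quotient.lift (Ideal.span {w}) ((Ideal.Quotient.mk I).comp (algebraMap R Λ))
      (fun a ha => by
        obtain ⟨c, rfl⟩ := Ideal.mem_span_singleton.1 ha
        rw [RingHom.comp_apply, Ideal.Quotient.eq_zero_iff_mem, map_mul]
        exact Ideal.mul_mem_right _ _ (Ideal.subset_span rfl))
  let φ : (R ⧸ Ideal.span {w})[X] →+* Λ ⧸ I :=
    eval₂RingHom f (Ideal.Quotient.mk I (adjoinEquiv hx X))
  have hφ : ∀ p : R[X], φ (p.map (Ideal.Quotient.mk (Ideal.span {w}))) =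
      Ideal.Quotient.mk I (adjoinEquiv hx p) := by
    intro p
    induction p using Polynomial.induction_on' with
    | add p q hp hq => rw [Polynomial.map_add, map_add, hp, hq, map_add, map_add]
    | monomial n a =>
      rw [Polynomial.map_monomial, ← C_mul_X_pow_eq_monomial, ← C_mul_X_pow_eq_monomial,
        map_mul, map_mul, map_mul, map_pow, map_pow, map_pow, adjoinEquiv_C]
      show eval₂ f _ (C _) * eval₂ f _ X ^ n = _
      rw [eval₂_C, eval₂_X]
      rfl
  have hsurj : Function.Surjective φ := by
    intro y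
    obtain ⟨a, rfl⟩ := Ideal.Quotient.mk_surjective y
    obtain ⟨p, rfl⟩ := (adjoinEquiv hx).surjective a
    exact ⟨_, hφ p⟩
  exact IsPrincipalIdealRing.of_surjective φ hsurj

/-- A prime element of `R[x]` dividing the uniformiser is an associate of it. -/
theorem associated_of_prime_dvd {Λ : Type*} [CommRing Λ] [IsDomain Λ] {π w : Λ} (hπ : Prime π)
    (hw : Prime w) (h : π ∣ w) : Associated π w :=
  hπ.associated_of_dvd hw h

/-- A prime element of `R[x]` not dividing the uniformiser `w` of the discrete valuation ring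
`R` does not divide any nonzero constant. -/
theorem not_dvd_algebraMap_of_not_dvd [IsDomain R] [IsDiscreteValuationRing R]
    {Λ : Type*} [CommRing Λ] [Algebra R Λ] {π : Λ} (hπ : Prime π) {w : R} (hw : Irreducible w)
    (h : ¬ π ∣ algebraMap R Λ w) {r : R} (hr : r ≠ 0) : ¬ π ∣ algebraMap R Λ r := by
  obtain ⟨n, u, rfl⟩ := IsDiscreteValuationRing.eq_unit_mul_pow_irreducible hr hw
  intro hd
  rw [map_mul, map_pow] at hd
  rcases hπ.dvd_or_dvd hd with h1 | h1
  · exact hπ.not_isUnit (isUnit_of_dvd_unit h1 (u.isUnit.map (algebraMap R Λ)))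
  · exact h (hπ.dvd_of_dvd_pow h1)

end Fermat.Agent.A2.A3.H492
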