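import Mathlib.RingTheory.UniqueFactorizationDomain.Basic

/-!
# A2 / A3 (δ-count), producer side, part 3 (helper492): local divisibility in a UFD

`exists_dvd_mul_pow` : in a unique factorisation domain, if `a ∣ b` locally at every prime
element not dividing `t`, then `a ∣ b * t ^ N` for some `N`.

`associated_map_of_local` : if moreover `red t = 1` for a ring homomorphism `red` into a
domain, and `a`, `b` divide each other locally at every prime not dividing `t`, then `red a`
and `red b` are associated.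

Mathlib only.
-/

set_option autoImplicit false

namespace Fermat.Agent.A2.A3.H492

variable {Λ : Type*} [CommRing Λ] [IsDomain Λ] [UniqueFactorizationMonoid Λ]

/-- If `a ∣ b` locally at every prime element not dividing `t`, then `a ∣ b * t ^ N`. -/
theorem exists_dvd_mul_pow (t : Λ) (a : Λ) (ha : a ≠ 0) (b : Λ)
    (h : ∀ π : Λ, Prime π → ¬ π ∣ t → ∃ s, ¬ π ∣ s ∧ a ∣ b * s) :
    ∃ N : ℕ, a ∣ b * t ^ N := by
  revert b
  induction a using UniqueFactorizationMonoid.induction_on_prime with
  | h₁ => exact absurd rfl ha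
  | h₂ x hx => exact fun b _ => ⟨0, hx.dvd⟩
  | h₃ a p ha0 hp ih =>
    intro b h
    by_cases hpt : p ∣ t
    · obtain ⟨N, hN⟩ := ih ha0 b fun π hπ hπt => by
        obtain ⟨s, hs, hdiv⟩ := h π hπ hπt
        exact ⟨s, hs, (dvd_mul_left a p).trans hdiv⟩
      refine ⟨N + 1, ?_⟩
      rw [pow_succ, ← mul_assoc, mul_comm p a]
      exact mul_dvd_mul hN hpt
    · obtain ⟨s, hs, hdiv⟩ := h p hp hpt
      have hpb : p ∣ b := by
        rcases hp.dvd_or_dvd ((dvd_mul_right p a).trans hdiv) with h1 | h1
        · exact h1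
        · exact absurd h1 hs
      obtain ⟨b₁, rfl⟩ := hpb
      obtain ⟨N, hN⟩ := ih ha0 b₁ fun π hπ hπt => by
        obtain ⟨s, hs, hdiv⟩ := h π hπ hπt
        refine ⟨s, hs, ?_⟩
        rw [mul_assoc] at hdiv
        exact (mul_dvd_mul_iff_left hp.ne_zero).1 hdiv
      refine ⟨N, ?_⟩
      rw [mul_assoc]
      exact mul_dvd_mul_left p hN

/-- If `a` and `b` divide each other locally at every prime element not dividing `t` and
`red t = 1`, then `red a` and `red b` are associated. -/
theorem associated_map_of_local {P : Type*} [CommRing P] [IsDomain P] (red : Λ →+* P)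
    (t : Λ) (ht : red t = 1) (a b : Λ) (ha : a ≠ 0) (hb : b ≠ 0)
    (hab : ∀ π : Λ, Prime π → ¬ π ∣ t → ∃ s, ¬ π ∣ s ∧ a ∣ b * s)
    (hba : ∀ π : Λ, Prime π → ¬ π ∣ t → ∃ s, ¬ π ∣ s ∧ b ∣ a * s) :
    Associated (red a) (red b) := by
  obtain ⟨N, hN⟩ := exists_dvd_mul_pow t a ha b hab
  obtain ⟨M, hM⟩ := exists_dvd_mul_pow t b hb a hba
  have h1 : red a ∣ red b := by
    have := map_dvd red hN
    rwa [map_mul, map_pow, ht, one_pow, mul_one] at this
  have h2 : red b ∣ red a := by
    have := map_dvd red hM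
    rwa [map_mul, map_pow, ht, one_pow, mul_one] at this
  exact associated_of_dvd_dvd h1 h2

end Fermat.Agent.A2.A3.H492
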