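import Fermat.Agent.A2.A3.H492.RedBasis
import Fermat.Agent.A2.A3.H492.Ufd
import Fermat.Agent.A2.H733.DiscrTower
import Mathlib.FieldTheory.SeparableDegree

/-!
# A2 / A3 (δ-count), producer side, part 4 (helper492): the discriminant of an étale-in-
codimension-one cover

Setting: `Λ` a unique factorisation domain (integrally closed), `K = Frac Λ`, `K ⊆ F ⊆ 𝔽` finite
separable, `B`, `B'` the integral closures of `Λ` in `F`, `𝔽`, with bases modulo `w`
(`BasisMod`), `h = [𝔽 : F]`.

* `EtaleAt π F 𝔽` : locally at the prime element `π` of `Λ` there is an `F`-basis of `𝔽` of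
  (locally) integral elements with (locally) unit discriminant.
* `BasisMod.locInt_repr` : coordinates of locally integral elements in a basis modulo `w`.
* `local_dvd` : locally at `π ∤ ρ ρ'`, `disc (B' / Λ)` and `disc (B / Λ) ^ h` divide each other.
* `associated_discr` : **the reduction modulo `w` of `disc (B' / Λ)` is associated to the `h`-th
  power of the reduction of `disc (B / Λ)`**, as discriminants of the special fibres over `Λ / w`.
* `RedData.discr_basis_ne_zero` : the discriminant of the special fibre is nonzero as soon as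
  some family of integral elements has discriminant `≢ 0 mod w` (separating coordinate).

Mathlib + `A2/H733/DiscrTower` (tower formula).
-/

set_option autoImplicit false

namespace Fermat.Agent.A2.A3.H492

open Module

/-- `𝔽 / F` is étale over the integral closure of `Λ`, locally at the prime element `π`. -/
def EtaleAt {Λ : Type*} [CommRing Λ] (π : Λ) (F 𝔽 : Type*) [Field F] [Field 𝔽] [Algebra F 𝔽]
    [Algebra Λ F] [Algebra Λ 𝔽] : Prop :=
  ∃ c : Basis (Fin (finrank F 𝔽)) F 𝔽, (∀ j, LocInt π (c j)) ∧ LocInt π (Algebra.discr F c)⁻¹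

section

variable {Λ K F : Type*} [CommRing Λ] [IsDomain Λ] [Field K] [Field F] [Algebra Λ K]
  [IsFractionRing Λ K] [Algebra K F] [Algebra Λ F] [IsScalarTower Λ K F]
  {w π : Λ} {ι : Type*} [Fintype ι]

/-- Coordinates of locally integral elements with respect to a basis modulo `w` are locally
integral, at primes not dividing the denominator `ρ`. -/
theorem BasisMod.locInt_repr (bm : BasisMod Λ K F w ι) (hπ : Prime π) (hρ : ¬ π ∣ bm.ρ)
    {y : F} (hy : LocInt π y) (i : ι) : LocInt π (bm.basis.repr y i) := by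
  obtain ⟨s, hs, hsy⟩ := hy
  obtain ⟨c, hc⟩ := bm.exists_smul_eq ⟨s • y, hsy⟩
  have h := bm.repr_eq ⟨s • y, hsy⟩ hc i
  have h2 : bm.basis.repr (s • y) i = algebraMap Λ K s * bm.basis.repr y i := by
    rw [← algebraMap_smul K s y, map_smul, Finsupp.smul_apply, smul_eq_mul]
  refine LocInt.of_eq_algebraMap (s := bm.ρ * s) (a := c i)
    (fun hd => (hπ.dvd_or_dvd hd).elim hρ hs) ?_
  rw [Algebra.smul_def, map_mul, mul_assoc, ← h2]
  exact h

end

section Compare

variable {Λ K F 𝔽 : Type*} [CommRing Λ] [IsDomain Λ] [IsIntegrallyClosed Λ]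
  [Field K] [Algebra Λ K] [IsFractionRing Λ K]
  [Field F] [Algebra K F] [Algebra Λ F] [IsScalarTower Λ K F] [FiniteDimensional K F]
  [Field 𝔽] [Algebra F 𝔽] [Algebra K 𝔽] [Algebra Λ 𝔽] [IsScalarTower K F 𝔽]
  [IsScalarTower Λ K 𝔽] [IsScalarTower Λ F 𝔽] [FiniteDimensional F 𝔽]
  [Algebra.IsSeparable F 𝔽]
  {w π : Λ} {ι ι' : Type*} [Fintype ι] [Fintype ι'] [DecidableEq ι] [DecidableEq ι']

/-- A family expressed in a basis: the discriminants differ by the square of the determinant
of the coordinate matrix. -/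
theorem discr_eq_det_sq_mul (u : Basis ι' K 𝔽) (v : ι' → 𝔽) :
    Algebra.discr K v = (Matrix.of fun l m => u.repr (v l) m).det ^ 2 * Algebra.discr K u := by
  rw [← Algebra.discr_of_matrix_mulVec]
  congr 1
  funext l
  rw [Matrix.mulVec, dotProduct]
  conv_lhs => rw [← u.sum_repr (v l)]
  refine Finset.sum_congr rfl fun m _ => ?_
  rw [Matrix.map_apply, Matrix.of_apply, Algebra.smul_def]

omit [FiniteDimensional K F] in
/-- Locally at a prime element `π` at which `𝔽 / F` is étale (and prime to the denominators),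
`disc (B' / Λ)` and `disc (B / Λ) ^ [𝔽 : F]` divide each other. -/
theorem local_dvd (bm : BasisMod Λ K F w ι) (bm' : BasisMod Λ K 𝔽 w ι')
    (hπ : Prime π) (hρ : ¬ π ∣ bm.ρ) (hρ' : ¬ π ∣ bm'.ρ) (het : EtaleAt π F 𝔽)
    (d d' : Λ) (hd : algebraMap Λ K d = Algebra.discr K bm.basis)
    (hd' : algebraMap Λ K d' = Algebra.discr K bm'.basis) :
    (∃ s, ¬ π ∣ s ∧ d' ∣ d ^ finrank F 𝔽 * s) ∧ (∃ s, ¬ π ∣ s ∧ d ^ finrank F 𝔽 ∣ d' * s) := by
  obtain ⟨c, hc, hcd⟩ := het
  have hne : Algebra.discr F c ≠ 0 := Algebra.discr_not_zero_of_basis F c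
  -- the product basis
  set bc : Basis (Fin (finrank F 𝔽) × ι) K 𝔽 := bm.basis.smulTower' c with hbc
  set e : ι' ≃ Fin (finrank F 𝔽) × ι := bm'.basis.indexEquiv bc with he
  set v : Basis ι' K 𝔽 := bc.reindex e.symm with hv
  have hv_apply : ∀ l, v l = bm.basis (e l).2 • c (e l).1 := fun l => by
    rw [hv, Basis.reindex_apply, Equiv.symm_symm, hbc, Basis.smulTower'_apply]
  have hv_repr : ∀ (y : 𝔽) l, v.repr y l = bm.basis.repr (c.repr y (e l).1) (e l).2 := fun y l => by
    rw [hv, Basis.repr_reindex_apply, Equiv.symm_symm, hbc]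
    exact Basis.smulTower'_repr_mk _ _ _ _ _
  -- the discriminant of the product basis
  have hdv : Algebra.discr K v =
      algebraMap Λ K d ^ finrank F 𝔽 * Algebra.norm K (Algebra.discr F c) := by
    have h1 : (v : ι' → 𝔽) = bc ∘ e.symm.symm := by
      rw [hv, Basis.coe_reindex]
    rw [h1, Algebra.discr_reindex, hbc, Fermat.Agent.A2.H733.discr_smulTower', hd,
      Fintype.card_fin]
  -- the norm of the discriminant of `c` is a local unit
  have hdc : LocInt π (Algebra.discr F c) := by
    rw [Algebra.discr_def]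
    refine mem_locSub.1 (det_mem_of_forall_mem (locSub π hπ F) _ fun i j => ?_)
    rw [Algebra.traceMatrix_apply, Algebra.traceForm_apply]
    exact mem_locSub.2 (LocInt.mul hπ (hc i) (hc j)).trace
  have hν : LocInt π (Algebra.norm K (Algebra.discr F c)) := hdc.norm hπ
  have hν' : LocInt π (Algebra.norm K (Algebra.discr F c)⁻¹) := hcd.norm hπ
  have hνν' : Algebra.norm K (Algebra.discr F c) * Algebra.norm K (Algebra.discr F c)⁻¹ = 1 := by
    rw [← map_mul, mul_inv_cancel₀ hne, map_one]
  -- local integrality of the elements of both bases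
  have hvloc : ∀ l, LocInt π (v l) := fun l => by
    rw [hv_apply, Algebra.smul_def]
    refine LocInt.mul hπ (LocInt.of_isIntegral hπ ?_) (hc _)
    exact (bm.integral _).algebraMap
  -- the transition matrices have locally integral entries
  have hP : ∀ l m, LocInt π (bm'.basis.repr (v l) m) := fun l m =>
    bm'.locInt_repr hπ hρ' (hvloc l) m
  have hQ : ∀ l m, LocInt π (v.repr (bm'.basis l) m) := fun l m => by
    rw [hv_repr]
    refine bm.locInt_repr hπ hρ ?_ _
    exact LocInt.repr_of_discr hπ c hc hne hcd (LocInt.of_isIntegral hπ (bm'.integral l)) _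
  have hdetP : LocInt π (Matrix.of fun l m => bm'.basis.repr (v l) m).det :=
    mem_locSub.1 (det_mem_of_forall_mem (locSub π hπ K) _ fun l m => mem_locSub.2 (hP l m))
  have hdetQ : LocInt π (Matrix.of fun l m => v.repr (bm'.basis l) m).det :=
    mem_locSub.1 (det_mem_of_forall_mem (locSub π hπ K) _ fun l m => mem_locSub.2 (hQ l m))
  have e1 := discr_eq_det_sq_mul bm'.basis (v : ι' → 𝔽)
  have e2 := discr_eq_det_sq_mul v (bm'.basis : ι' → 𝔽)
  rw [hdv, ← hd'] at e1
  rw [hdv, ← hd'] at e2
  constructor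
  · -- `d ^ h = (det P ^ 2 * ν') * d'`
    obtain ⟨s, a, hs, hsa⟩ := LocInt.exists_eq_algebraMap
      (LocInt.mul hπ (LocInt.mul hπ hdetP hdetP) hν')
    refine ⟨s, hs, a, ?_⟩
    apply IsFractionRing.injective Λ K
    rw [map_mul, map_mul, map_pow, ← hsa, Algebra.smul_def]
    have : algebraMap Λ K d ^ finrank F 𝔽 =
        (Matrix.of fun l m => bm'.basis.repr (v l) m).det ^ 2 * algebraMap Λ K d' *
          Algebra.norm K (Algebra.discr F c)⁻¹ := by
      rw [← e1, mul_assoc, hνν', mul_one]
    rw [this]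
    ring
  · -- `d' = (det Q ^ 2 * ν) * d ^ h`
    obtain ⟨s, a, hs, hsa⟩ := LocInt.exists_eq_algebraMap
      (LocInt.mul hπ (LocInt.mul hπ hdetQ hdetQ) hν)
    refine ⟨s, hs, a, ?_⟩
    apply IsFractionRing.injective Λ K
    rw [map_mul, map_mul, map_pow, ← hsa, Algebra.smul_def, e2]
    ring

omit [IsDomain Λ] [DecidableEq ι'] in
/-- Existence of the integral discriminant. -/
theorem BasisMod.exists_discr (bm : BasisMod Λ K F w ι) :
    ∃ d : Λ, algebraMap Λ K d = Algebra.discr K bm.basis :=
  IsIntegrallyClosed.isIntegral_iff.1 (Algebra.discr_isIntegral K bm.integral)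

/-- **The discriminant of the special fibre of an étale-in-codimension-one cover.**
If `𝔽 / F` is étale at every prime element of the unique factorisation domain `Λ`, the
discriminant of the special fibre `C' = B' / w B'` over `P = Λ / w` is associated to the
`[𝔽 : F]`-th power of the discriminant of the special fibre `C = B / w B`. -/
theorem associated_discr [UniqueFactorizationMonoid Λ] [Algebra.IsSeparable K F]
    {P C C' : Type*} [CommRing P] [IsDomain P] [CommRing C] [CommRing C'] [Algebra P C]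
    [Algebra P C']
    (D : RedData Λ F w P C) (D' : RedData Λ 𝔽 w P C') (hred : D'.red = D.red)
    (bm : BasisMod Λ K F w ι) (bm' : BasisMod Λ K 𝔽 w ι')
    (het : ∀ π : Λ, Prime π → EtaleAt π F 𝔽) :
    Associated (Algebra.discr P (D'.basis bm'))
      (Algebra.discr P (D.basis bm) ^ finrank F 𝔽) := by
  have : Algebra.IsSeparable K 𝔽 := Algebra.IsSeparable.trans K F 𝔽
  have : FiniteDimensional K 𝔽 := FiniteDimensional.trans K F 𝔽
  obtain ⟨d, hd⟩ := bm.exists_discr
  obtain ⟨d', hd'⟩ := bm'.exists_discr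
  have hd0 : d ≠ 0 := by
    rintro rfl
    rw [map_zero] at hd
    exact Algebra.discr_not_zero_of_basis K bm.basis hd.symm
  have hd'0 : d' ≠ 0 := by
    rintro rfl
    rw [map_zero] at hd'
    exact Algebra.discr_not_zero_of_basis K bm'.basis hd'.symm
  rw [D'.discr_basis bm' d' hd', D.discr_basis bm d hd, hred, ← map_pow]
  have ht : D.red (bm.ρ * bm'.ρ) = 1 := by
    rw [map_mul, D.red_ρ bm, ← hred, D'.red_ρ bm', one_mul]
  refine associated_map_of_local D.red (bm.ρ * bm'.ρ) ht d' (d ^ finrank F 𝔽) hd'0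
    (pow_ne_zero _ hd0) ?_ ?_
  · intro π hπ hπt
    exact (local_dvd bm bm' hπ (fun h => hπt (h.mul_right _)) (fun h => hπt (h.mul_left _))
      (het π hπ) d d' hd hd').1
  · intro π hπ hπt
    exact (local_dvd bm bm' hπ (fun h => hπt (h.mul_right _)) (fun h => hπt (h.mul_left _))
      (het π hπ) d d' hd hd').2

end Compare

section NeZero

variable {Λ K F : Type*} [CommRing Λ] [IsDomain Λ] [IsIntegrallyClosed Λ]
  [Field K] [Algebra Λ K] [IsFractionRing Λ K]
  [Field F] [Algebra K F] [Algebra Λ F] [IsScalarTower Λ K F] [FiniteDimensional K F]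
  {w : Λ} {ι : Type*} [Fintype ι] [DecidableEq ι]
  {P C : Type*} [CommRing P] [IsDomain P] [CommRing C] [Algebra P C]

omit [IsDomain P] in
/-- **Separating coordinate ⇒ the discriminant of the special fibre is nonzero.**  If some
family `b₀` of integral elements has a discriminant `d₀ ∈ Λ` with `w ∤ d₀`, then the
discriminant of the special fibre (with respect to the reduction of a basis modulo `w`) is
nonzero. -/
theorem RedData.discr_basis_ne_zero (D : RedData Λ F w P C) (bm : BasisMod Λ K F w ι)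
    (b₀ : ι → F) (hb₀ : ∀ i, IsIntegral Λ (b₀ i)) (d₀ : Λ)
    (hd₀ : algebraMap Λ K d₀ = Algebra.discr K b₀) (hw : ¬ w ∣ d₀) :
    Algebra.discr P (D.basis bm) ≠ 0 := by
  obtain ⟨d, hd⟩ := bm.exists_discr
  rw [D.discr_basis bm d hd]
  intro h0
  choose M hM using fun i => bm.exists_smul_eq ⟨b₀ i, hb₀ i⟩
  have hrepr : ∀ i j, algebraMap Λ K bm.ρ * bm.basis.repr (b₀ i) j = algebraMap Λ K (M i j) :=
    fun i j => bm.repr_eq ⟨b₀ i, hb₀ i⟩ (hM i) j
  have e1 := discr_eq_det_sq_mul bm.basis b₀
  have e2 : algebraMap Λ K bm.ρ ^ Fintype.card ι *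
      (Matrix.of fun l m => bm.basis.repr (b₀ l) m).det
        = algebraMap Λ K (Matrix.of M).det := by
    rw [← Matrix.det_smul, RingHom.map_det]
    congr 1
    ext i j
    simp only [Matrix.smul_apply, Matrix.of_apply, smul_eq_mul, RingHom.mapMatrix_apply,
      Matrix.map_apply]
    exact hrepr i j
  have e3 : bm.ρ ^ (2 * Fintype.card ι) * d₀ = (Matrix.of M).det ^ 2 * d := by
    apply IsFractionRing.injective Λ K
    rw [map_mul, map_mul, map_pow, map_pow, hd₀, hd, ← e2, e1]
    ring
  have e4 := congrArg D.red e3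
  rw [map_mul, map_mul, map_pow, D.red_ρ bm, one_pow, one_mul, h0, mul_zero] at e4
  exact hw ((D.red_ker d₀).1 e4)

end NeZero

end Fermat.Agent.A2.A3.H492
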