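import Fermat.Agent.A2.A3.H492.Compare
import Fermat.Agent.A2.H69.KummerEtale
import Mathlib.RingTheory.Localization.Integral
import Mathlib.RingTheory.Localization.AtPrime.Basic
import Mathlib.RingTheory.Localization.LocalizationLocalization
import Mathlib.RingTheory.DiscreteValuationRing.TFAE

/-!
# A2 / A3 (δ-count), producer side, part 5 (helper492): Kummer covers are étale at `π`

Adapter from `Fermat.Agent.A2.H69.exists_basis_isIntUnit_discr_of_divisible` (helper69: divisible
Kummer covers are étale over a discrete valuation ring `A`) to the hypothesis `EtaleAt π F 𝔽` of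
`exists_bases_associated_discr`, with `A = Λ_(π)` hidden inside the proof.

* `LocInt.of_isIntegral_atPrime` : integral over the localisation at `(π)` ⇒ `LocInt π`.
* `isDiscreteValuationRing_atPrime_span` : `Λ_(π)` is a discrete valuation ring
  (`Λ` a noetherian domain, `π` a prime element).
* `etaleAt_of_kummer` : `𝔽 = F(s)`, every `G ∈ s` with `G ^ m = g ∈ F`, `π ∤ m`, and `g` a unit
  times an `m`-th power at every discrete valuation subring `V` of `F` containing `Λ` in which
  the elements prime to `π` are invertible ⇒ `EtaleAt π F 𝔽`.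
-/

set_option autoImplicit false

namespace Fermat.Agent.A2.A3.H492

open Module

universe u

section Adapter

variable {Λ : Type*} [CommRing Λ] {π : Λ}

/-- Integral over the localisation of `Λ` at the prime ideal `(π)` implies integral over `Λ`
locally at `π`. -/
theorem LocInt.of_isIntegral_atPrime (A : Type*) [CommRing A] [Algebra Λ A]
    [(Ideal.span {π}).IsPrime] [IsLocalization.AtPrime A (Ideal.span {π})]
    {F : Type*} [CommRing F] [Algebra Λ F] [Algebra A F] [IsScalarTower Λ A F] {y : F}
    (hy : IsIntegral A y) : LocInt π y := by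
  obtain ⟨⟨s, hs⟩, h⟩ :=
    IsIntegral.exists_multiple_integral_of_isLocalization (Ideal.span {π}).primeCompl y hy
  exact ⟨s, fun hd => hs (Ideal.mem_span_singleton.2 hd), h⟩

/-- The localisation of a noetherian domain at a principal prime ideal is a discrete valuation
ring. -/
theorem isDiscreteValuationRing_atPrime_span [IsDomain Λ] [IsNoetherianRing Λ] (hπ : Prime π)
    (A : Type*) [CommRing A] [IsDomain A] [Algebra Λ A]
    [(Ideal.span {π}).IsPrime] [IsLocalization.AtPrime A (Ideal.span {π})] :
    IsDiscreteValuationRing A := by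
  have hloc : IsLocalRing A := IsLocalization.AtPrime.isLocalRing A (Ideal.span {π})
  have hnoeth : IsNoetherianRing A :=
    IsLocalization.isNoetherianRing (Ideal.span {π}).primeCompl A inferInstance
  have hmax : IsLocalRing.maximalIdeal A = Ideal.span {algebraMap Λ A π} := by
    rw [← IsLocalization.AtPrime.map_eq_maximalIdeal (Ideal.span {π}) A, Ideal.map_span,
      Set.image_singleton]
  have hprinc : (IsLocalRing.maximalIdeal A).IsPrincipal := ⟨⟨algebraMap Λ A π, hmax⟩⟩
  have hPID : IsPrincipalIdealRing A :=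
    ((tfae_of_isNoetherianRing_of_isLocalRing_of_isDomain (R := A)).out 0 4).2 hprinc
  refine { toIsPrincipalIdealRing := hPID, toIsLocalRing := hloc, not_a_field' := ?_ }
  rw [hmax, Ne, Ideal.span_singleton_eq_bot]
  have hinj : Function.Injective (algebraMap Λ A) :=
    IsLocalization.injective A (Ideal.span {π}).primeCompl_le_nonZeroDivisors
  exact fun h => hπ.ne_zero (hinj (by rw [h, map_zero]))

end Adapter

section Kummer

variable {Λ K : Type*} {F 𝔽 : Type u} [CommRing Λ] [IsDomain Λ] [IsNoetherianRing Λ]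
  [Field K] [Algebra Λ K] [IsFractionRing Λ K] [CharZero K]
  [Field F] [Algebra K F] [Algebra Λ F] [IsScalarTower Λ K F] [FiniteDimensional K F]
  [Field 𝔽] [Algebra F 𝔽] [Algebra Λ 𝔽] [IsScalarTower Λ F 𝔽] [FiniteDimensional F 𝔽]

include K in
/-- **Divisible Kummer covers are étale at `π`.**  `𝔽 = F(s)`, every `G ∈ s` satisfies
`G ^ m = g ∈ F` with `π ∤ m`, and `g` is a unit times an `m`-th power at every discrete valuation
subring `V` of `F` containing `Λ` in which all elements of `Λ` prime to `π` are invertible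
(i.e. at every extension to `F` of the `π`-adic valuation).  Then `𝔽 / F` is étale at `π`. -/
theorem etaleAt_of_kummer {π : Λ} (hπ : Prime π) (m : ℕ) (hm : ¬ π ∣ (m : Λ))
    (s : Set 𝔽) (hs : IntermediateField.adjoin F s = ⊤)
    (hG : ∀ G ∈ s, G ≠ 0 ∧ ∃ g : F, algebraMap F 𝔽 g = G ^ m ∧
      ∀ V : ValuationSubring F, IsDiscreteValuationRing V →
        (∀ a : Λ, algebraMap Λ F a ∈ V) →
        (∀ a : Λ, ¬ π ∣ a → (algebraMap Λ F a)⁻¹ ∈ V) →
        ∃ h u : F, h ≠ 0 ∧ u ∈ V ∧ u⁻¹ ∈ V ∧ g = u * h ^ m) :
    EtaleAt π F 𝔽 := by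
  have hP : (Ideal.span {π}).IsPrime := (Ideal.span_singleton_prime hπ.ne_zero).2 hπ
  -- the localisation `A = Λ_(π)` and its algebra structures
  let A := Localization.AtPrime (Ideal.span {π})
  have hunit : ∀ y : (Ideal.span {π}).primeCompl, IsUnit (algebraMap Λ K y) := fun y => by
    refine IsUnit.mk0 _ fun h0 => y.2 ?_
    have : (y : Λ) = 0 := IsFractionRing.injective Λ K (by rw [h0, map_zero])
    rw [this]
    exact Ideal.zero_mem _
  let algAK : Algebra A K := (IsLocalization.lift (S := A) hunit).toAlgebra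
  have hAK : ∀ a : Λ, algebraMap A K (algebraMap Λ A a) = algebraMap Λ K a := fun a =>
    IsLocalization.lift_eq hunit a
  have tΛAK : IsScalarTower Λ A K := IsScalarTower.of_algebraMap_eq fun a => (hAK a).symm
  have : IsFractionRing A K :=
    IsFractionRing.isFractionRing_of_isDomain_of_isLocalization
      (Ideal.span {π}).primeCompl A K
  let algAF : Algebra A F := ((algebraMap K F).comp (algebraMap A K)).toAlgebra
  have tAKF : IsScalarTower A K F := IsScalarTower.of_algebraMap_eq fun _ => rfl
  have hAF : ∀ a : Λ, algebraMap A F (algebraMap Λ A a) = algebraMap Λ F a := fun a => by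
    rw [IsScalarTower.algebraMap_apply A K F, hAK, ← IsScalarTower.algebraMap_apply Λ K F]
  have tΛAF : IsScalarTower Λ A F := IsScalarTower.of_algebraMap_eq fun a => (hAF a).symm
  let algA𝔽 : Algebra A 𝔽 := ((algebraMap F 𝔽).comp (algebraMap A F)).toAlgebra
  have tAF𝔽 : IsScalarTower A F 𝔽 := IsScalarTower.of_algebraMap_eq fun _ => rfl
  have tΛA𝔽 : IsScalarTower Λ A 𝔽 := IsScalarTower.of_algebraMap_eq fun a => by
    rw [IsScalarTower.algebraMap_apply A F 𝔽, hAF, ← IsScalarTower.algebraMap_apply Λ F 𝔽]
  have : IsDiscreteValuationRing A := isDiscreteValuationRing_atPrime_span hπ A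
  have hmA : IsUnit ((m : ℕ) : A) := by
    have h1 : ((m : ℕ) : A) = algebraMap Λ A (m : Λ) := (map_natCast (algebraMap Λ A) m).symm
    rw [h1]
    exact IsLocalization.map_units A
      (⟨(m : Λ), fun h => hm (Ideal.mem_span_singleton.1 h)⟩ : (Ideal.span {π}).primeCompl)
  -- elements of `A` lie in `V`
  have hVA : ∀ V : ValuationSubring F, (∀ a : Λ, algebraMap Λ F a ∈ V) →
      (∀ a : Λ, ¬ π ∣ a → (algebraMap Λ F a)⁻¹ ∈ V) → ∀ a : A, algebraMap A F a ∈ V := by
    intro V h1 h2 a
    obtain ⟨⟨b, t⟩, hbt⟩ := IsLocalization.surj (Ideal.span {π}).primeCompl a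
    have ht : ¬ π ∣ (t : Λ) := fun h => t.2 (Ideal.mem_span_singleton.2 h)
    have ht0 : algebraMap Λ F (t : Λ) ≠ 0 := by
      intro h0
      have : (t : Λ) = 0 := by
        have hinj : Function.Injective (algebraMap Λ F) := by
          rw [IsScalarTower.algebraMap_eq Λ K F]
          exact (algebraMap K F).injective.comp (IsFractionRing.injective Λ K)
        exact hinj (by rw [h0, map_zero])
      exact ht (this ▸ dvd_zero π)
    have h3 : algebraMap A F a * algebraMap Λ F (t : Λ) = algebraMap Λ F b := by
      rw [← hAF, ← hAF, ← map_mul]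
      exact congrArg _ hbt
    have h4 : algebraMap A F a = algebraMap Λ F b * (algebraMap Λ F (t : Λ))⁻¹ := by
      rw [← h3, mul_assoc, mul_inv_cancel₀ ht0, mul_one]
    rw [h4]
    exact V.mul_mem _ _ (h1 b) (h2 t ht)
  obtain ⟨y, hy, -, -, hdinv⟩ :=
    Fermat.Agent.A2.H69.exists_basis_isIntUnit_discr_of_divisible (A := A) (K := K) (F := F)
      (L := 𝔽) m hmA s hs (fun G hGs => by
        obtain ⟨hG0, g, hg, hdiv⟩ := hG G hGs
        refine ⟨hG0, g, hg, fun V hV hA => hdiv V hV (fun a => ?_) (fun a ha => ?_)⟩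
        · rw [← hAF]
          exact hA _
        · have hu : IsUnit (algebraMap Λ A a) := IsLocalization.map_units A
            (⟨a, fun h => ha (Ideal.mem_span_singleton.1 h)⟩ : (Ideal.span {π}).primeCompl)
          obtain ⟨b, hb⟩ := hu.exists_right_inv
          have h5 : algebraMap Λ F a * algebraMap A F b = 1 := by
            rw [← hAF, ← map_mul, hb, map_one]
          rw [← eq_inv_of_mul_eq_one_right h5]
          exact hA b)
  exact ⟨y, fun j => LocInt.of_isIntegral_atPrime A (hy j),
    LocInt.of_isIntegral_atPrime A hdinv⟩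

end Kummer

end Fermat.Agent.A2.A3.H492
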