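import Fermat.Agent.A2.A3.H492.ChartRing
import Fermat.Agent.A2.H12.GLemmas
import Mathlib.RingTheory.Algebraic.Integral
import Mathlib.RingTheory.Valuation.ValuationSubring

/-!
# A2 / A3 (δ-count), producer side, part 7 (helper492): the Kummer hypothesis over `R[x]`

The hypothesis `hG` of `exists_bases_associated_discr_of_kummer` for `Λ = R[x]`
(`R` a discrete valuation ring with uniformiser `w`), in the language of `A2/H12/GSpec.lean`:

* `isSheet_of_over_uniformizer` : a discrete valuation subring `V` of `F` lying over `Λ_(w)`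
  (`Λ ⊆ V`, elements of `Λ` prime to `w` invertible in `V`) is a sheet (`H12.IsSheet w x V`);
* `kummer_hyp` : if `g` is a unit at every sheet and `m ∣ div g` on the generic fibre
  (`H12.HorDiv R m g`), then for every prime element `π` of `Λ` and every discrete valuation
  subring `V` of `F` over `Λ_(π)`, `g` is a unit of `V` times an `m`-th power.

`Λ` is any model of `R[x]`: a domain with `WfDvdMonoid`, an `R`-algebra with `Λ → F`, in which
`w` is prime and Gauss' lemma holds (`hgauss`); e.g. `Λ = R[X]` with `algebraMap = aeval x`, or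
`Λ = Algebra.adjoin R {x}` (`ChartRing.lean`).
-/

set_option autoImplicit false

namespace Fermat.Agent.A2.A3.H492

open Polynomial Fermat.Agent.A2.H12

universe u

variable {R : Type u} [CommRing R] {F : Type u} [Field F] [Algebra R F]
  {Λ : Type*} [CommRing Λ] [IsDomain Λ] [WfDvdMonoid Λ] [Algebra R Λ] [Algebra Λ F]
  [IsScalarTower R Λ F]

omit [IsDomain Λ] [WfDvdMonoid Λ] in
/-- An element of `F` integral over `Λ ⊆ V` lies in the valuation subring `V`. -/
theorem mem_valuationSubring_of_isIntegral (V : ValuationSubring F)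
    (h1 : ∀ a : Λ, algebraMap Λ F a ∈ V) {c : F} (hc : IsIntegral Λ c) : c ∈ V := by
  let φ : Λ →+* V :=
    { toFun := fun a => ⟨algebraMap Λ F a, h1 a⟩
      map_one' := Subtype.ext (map_one _)
      map_mul' := fun _ _ => Subtype.ext (map_mul _ _ _)
      map_zero' := Subtype.ext (map_zero _)
      map_add' := fun _ _ => Subtype.ext (map_add _ _ _) }
  let _ : Algebra Λ V := φ.toAlgebra
  have : IsScalarTower Λ V F := IsScalarTower.of_algebraMap_eq fun _ => rfl
  have hcV : IsIntegral V c := hc.tower_top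
  obtain ⟨y, hy⟩ := IsIntegrallyClosed.isIntegral_iff.1 hcV
  rw [← hy]
  exact y.2

/-- A discrete valuation subring of `F` over `Λ_(w)` is a sheet. -/
theorem isSheet_of_over_uniformizer [Algebra.IsAlgebraic Λ F]
    (hinj : Function.Injective (algebraMap Λ F))
    {w : R} (hw' : Prime (algebraMap R Λ w)) {x : F} (X' : Λ) (hX' : algebraMap Λ F X' = x)
    (hgauss : ∀ P : R[X], (∃ i, ¬ w ∣ P.coeff i) → ¬ algebraMap R Λ w ∣ aeval X' P)
    (V : ValuationSubring F) (hV : IsDiscreteValuationRing V)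
    (h1 : ∀ a : Λ, algebraMap Λ F a ∈ V)
    (h2 : ∀ a : Λ, ¬ algebraMap R Λ w ∣ a → (algebraMap Λ F a)⁻¹ ∈ V) :
    IsSheet w x V := by
  have hwF : algebraMap R F w = algebraMap Λ F (algebraMap R Λ w) :=
    IsScalarTower.algebraMap_apply R Λ F w
  have hw0 : algebraMap R F w ≠ 0 := by
    rw [hwF]
    exact fun h => hw'.ne_zero (hinj (by rw [h, map_zero]))
  refine ⟨fun r => ?_, ?_, ?_, fun P hP => ?_⟩
  · rw [IsScalarTower.algebraMap_apply R Λ F]
    exact h1 _
  · rw [← hX']
    exact h1 _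
  · -- `w` is a non-unit of `V`
    by_contra hnon
    have hwinv : (algebraMap R F w)⁻¹ ∈ V := by
      have := (mem_iff_inv_not_mem_nonunits V (inv_ne_zero hw0)).2
      rw [inv_inv] at this
      exact this hnon
    -- every nonzero element of `Λ` is then invertible in `V`
    have hinv : ∀ a : Λ, a ≠ 0 → (algebraMap Λ F a)⁻¹ ∈ V := by
      intro a ha
      obtain ⟨n, a', ha', rfl⟩ := WfDvdMonoid.max_power_factor ha hw'.irreducible
      rw [map_mul, map_pow, mul_inv, ← inv_pow, ← hwF]
      exact V.mul_mem _ _ (V.pow_mem hwinv n) (h2 a' ha')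
    -- hence `V = F`, which is not a discrete valuation ring
    obtain ⟨ϖ, hϖ⟩ := IsDiscreteValuationRing.exists_irreducible V
    have hϖ0 : (ϖ : F) ≠ 0 := fun h => hϖ.ne_zero (Subtype.ext h)
    obtain ⟨a, ha0, haz⟩ := IsAlgebraic.exists_integral_multiple
      (Algebra.IsAlgebraic.isAlgebraic (R := Λ) ((ϖ : F)⁻¹))
    have h3 : a • (ϖ : F)⁻¹ ∈ V := mem_valuationSubring_of_isIntegral V h1 haz
    have h4 : (ϖ : F)⁻¹ ∈ V := by
      have ha0' : algebraMap Λ F a ≠ 0 := fun h => ha0 (hinj (by rw [h, map_zero]))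
      have : (ϖ : F)⁻¹ = (algebraMap Λ F a)⁻¹ * (a • (ϖ : F)⁻¹) := by
        rw [Algebra.smul_def, ← mul_assoc, inv_mul_cancel₀ ha0', one_mul]
      rw [this]
      exact V.mul_mem _ _ (hinv a ha0) h3
    apply hϖ.not_isUnit
    refine IsUnit.of_mul_eq_one ⟨(ϖ : F)⁻¹, h4⟩ (Subtype.ext ?_)
    show (ϖ : F) * (ϖ : F)⁻¹ = 1
    exact mul_inv_cancel₀ hϖ0
  · have h := h2 (aeval X' P) (hgauss P hP)
    have e : algebraMap Λ F (aeval X' P) = aeval x P := by
      rw [← hX', ← aeval_algebraMap_apply]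
    rwa [e] at h

/-- **The Kummer hypothesis over `R[x]`.**  If `g` is a unit at every sheet of `F` and
`m ∣ div g` on the generic fibre, then `g` is a unit times an `m`-th power at every discrete
valuation subring of `F` lying over a localisation `Λ_(π)`, `π` a prime element of `Λ = R[x]`. -/
theorem kummer_hyp [IsDomain R] [IsDiscreteValuationRing R] [Algebra.IsAlgebraic Λ F]
    (hinj : Function.Injective (algebraMap Λ F))
    {w : R} (hw : Irreducible w) (hw' : Prime (algebraMap R Λ w)) {x : F} (X' : Λ)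
    (hX' : algebraMap Λ F X' = x)
    (hgauss : ∀ P : R[X], (∃ i, ¬ w ∣ P.coeff i) → ¬ algebraMap R Λ w ∣ aeval X' P)
    (m : ℕ) {g : F} (hhor : HorDiv R m g)
    (hunit : ∀ V : ValuationSubring F, IsSheet w x V → g ∈ V ∧ g⁻¹ ∈ V)
    (π : Λ) (hπ : Prime π) (V : ValuationSubring F) (hV : IsDiscreteValuationRing V)
    (h1 : ∀ a : Λ, algebraMap Λ F a ∈ V)
    (h2 : ∀ a : Λ, ¬ π ∣ a → (algebraMap Λ F a)⁻¹ ∈ V) :
    ∃ h u : F, h ≠ 0 ∧ u ∈ V ∧ u⁻¹ ∈ V ∧ g = u * h ^ m := by
  by_cases hπw : π ∣ algebraMap R Λ w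
  · -- vertical prime: `V` is a sheet
    have hass : Associated π (algebraMap R Λ w) := hπ.associated_of_dvd hw' hπw
    have hS : IsSheet w x V := isSheet_of_over_uniformizer hinj hw' X' hX' hgauss V hV h1
      (fun a ha => h2 a fun hd => ha (hass.symm.dvd.trans hd))
    obtain ⟨hg, hg'⟩ := hunit V hS
    exact ⟨1, g, one_ne_zero, hg, hg', by rw [one_pow, mul_one]⟩
  · -- horizontal prime: `V` contains `Frac R`
    refine hhor V hV fun r hr => ?_
    have h3 := h2 (algebraMap R Λ r) (not_dvd_algebraMap_of_not_dvd hπ hw hπw hr)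
    rw [← IsScalarTower.algebraMap_apply R Λ F] at h3
    refine ⟨?_, h3⟩
    rw [IsScalarTower.algebraMap_apply R Λ F]
    exact h1 _

end Fermat.Agent.A2.A3.H492
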