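import Mathlib.RingTheory.Discriminant
import Mathlib.RingTheory.Norm.Transitivity
import Mathlib.RingTheory.IntegralClosure.IntegrallyClosed

/-!
# A2 / A3 (δ-count), producer side, part 1 (helper492): integrality locally at a prime element

`Λ` a commutative ring, `π : Λ` a prime element, `F` a `Λ`-algebra.

* `LocInt π y` : `y` is integral over `Λ` *locally at `π`*: `s • y` is integral for some `s` with
  `π ∤ s` (i.e. `y` lies in the integral closure of the localisation `Λ_(π)`, in elementwise form).
* `locSub π hπ F` : the subalgebra of locally integral elements.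
* `det_mem_of_forall_mem`, `adjugate_mem_of_forall_mem` : determinants and adjugates of matrices
  with entries in a subalgebra.
* `LocInt.trace`, `LocInt.norm` : traces and norms of locally integral elements.
* `LocInt.repr_of_discr` : if `c` is an `F`-basis of `𝔽` consisting of locally integral elements
  whose discriminant is a local unit (`(discr F c)⁻¹` locally integral), the coordinates of a
  locally integral element are locally integral ("unit discriminant ⇒ integral basis").
* `LocInt.exists_eq_algebraMap` : in the fraction field of an integrally closed domain, locally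
  integral means: a fraction with denominator prime to `π`.

Mathlib only.
-/

set_option autoImplicit false

namespace Fermat.Agent.A2.A3.H492

open Module

section Basic

variable {Λ : Type*} [CommRing Λ]

/-- `y` is integral over `Λ` locally at `π`. -/
def LocInt (π : Λ) {F : Type*} [CommRing F] [Algebra Λ F] (y : F) : Prop :=
  ∃ s : Λ, ¬ π ∣ s ∧ IsIntegral Λ (s • y)

variable {π : Λ} {F : Type*} [CommRing F] [Algebra Λ F]

theorem LocInt.of_isIntegral (hπ : Prime π) {y : F} (hy : IsIntegral Λ y) : LocInt π y :=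
  ⟨1, hπ.not_dvd_one, by simpa using hy⟩

theorem LocInt.add (hπ : Prime π) {y z : F} (hy : LocInt π y) (hz : LocInt π z) :
    LocInt π (y + z) := by
  obtain ⟨s, hs, hsy⟩ := hy
  obtain ⟨t, ht, htz⟩ := hz
  refine ⟨s * t, fun h => (hπ.dvd_or_dvd h).elim hs ht, ?_⟩
  have e : (s * t) • (y + z) = t • (s • y) + s • (t • z) := by
    rw [smul_add, mul_smul, mul_smul, smul_comm s t y]
  rw [e]
  exact (hsy.smul t).add (htz.smul s)

theorem LocInt.mul (hπ : Prime π) {y z : F} (hy : LocInt π y) (hz : LocInt π z) :
    LocInt π (y * z) := by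
  obtain ⟨s, hs, hsy⟩ := hy
  obtain ⟨t, ht, htz⟩ := hz
  refine ⟨s * t, fun h => (hπ.dvd_or_dvd h).elim hs ht, ?_⟩
  have e : (s * t) • (y * z) = (s • y) * (t • z) := by
    rw [smul_mul_smul_comm]
  rw [e]
  exact hsy.mul htz

/-- The subalgebra of elements integral over `Λ` locally at the prime element `π`. -/
def locSub (π : Λ) (hπ : Prime π) (F : Type*) [CommRing F] [Algebra Λ F] : Subalgebra Λ F where
  carrier := {y | LocInt π y}
  mul_mem' := fun hy hz => LocInt.mul hπ hy hz
  add_mem' := fun hy hz => LocInt.add hπ hy hz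
  algebraMap_mem' := fun _ => LocInt.of_isIntegral hπ isIntegral_algebraMap

theorem mem_locSub {hπ : Prime π} {y : F} : y ∈ locSub π hπ F ↔ LocInt π y := Iff.rfl

theorem LocInt.smul (hπ : Prime π) (a : Λ) {y : F} (hy : LocInt π y) : LocInt π (a • y) :=
  (locSub π hπ F).smul_mem (mem_locSub.2 hy) a

theorem LocInt.sum (hπ : Prime π) {ι : Type*} (s : Finset ι) (f : ι → F)
    (h : ∀ i ∈ s, LocInt π (f i)) : LocInt π (∑ i ∈ s, f i) :=
  (locSub π hπ F).sum_mem h

/-- Dividing by an element prime to `π` preserves local integrality (elementwise form). -/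
theorem LocInt.of_smul (hπ : Prime π) {s : Λ} (hs : ¬ π ∣ s) {y : F} (hy : LocInt π (s • y)) :
    LocInt π y := by
  obtain ⟨t, ht, hty⟩ := hy
  refine ⟨t * s, fun h => (hπ.dvd_or_dvd h).elim ht hs, ?_⟩
  rwa [mul_smul]

end Basic

section Matrices

variable {Λ : Type*} [CommRing Λ] {F : Type*} [CommRing F] [Algebra Λ F]
  {n : Type*} [Fintype n] [DecidableEq n]

/-- The determinant of a matrix with entries in a subalgebra lies in the subalgebra. -/
theorem det_mem_of_forall_mem (S : Subalgebra Λ F) (M : Matrix n n F)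
    (hM : ∀ i j, M i j ∈ S) : M.det ∈ S := by
  set M' : Matrix n n S := Matrix.of fun i j => (⟨M i j, hM i j⟩ : S) with hM'
  have e : M = S.val.toRingHom.mapMatrix M' := by
    ext i j; rfl
  rw [e, ← RingHom.map_det]
  exact (M'.det).2

/-- The adjugate of a matrix with entries in a subalgebra has entries in the subalgebra. -/
theorem adjugate_mem_of_forall_mem (S : Subalgebra Λ F) (M : Matrix n n F)
    (hM : ∀ i j, M i j ∈ S) (i j : n) : M.adjugate i j ∈ S := by
  set M' : Matrix n n S := Matrix.of fun i j => (⟨M i j, hM i j⟩ : S) with hM'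
  have e : M = S.val.toRingHom.mapMatrix M' := by
    ext i j; rfl
  rw [e, ← RingHom.map_adjugate]
  exact (M'.adjugate i j).2

end Matrices

section Fields

variable {Λ : Type*} [CommRing Λ] {π : Λ}
  {F 𝔽 : Type*} [Field F] [Field 𝔽] [Algebra F 𝔽] [Algebra Λ F] [Algebra Λ 𝔽]
  [IsScalarTower Λ F 𝔽]

theorem LocInt.trace [FiniteDimensional F 𝔽] {y : 𝔽} (hy : LocInt π y) :
    LocInt π (Algebra.trace F 𝔽 y) := by
  obtain ⟨s, hs, hsy⟩ := hy
  refine ⟨s, hs, ?_⟩
  have h := Algebra.isIntegral_trace (L := F) (F := 𝔽) hsy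
  rwa [LinearMap.map_smul_of_tower] at h

theorem LocInt.norm (hπ : Prime π) {y : 𝔽} (hy : LocInt π y) :
    LocInt π (Algebra.norm F y) := by
  obtain ⟨s, hs, hsy⟩ := hy
  by_cases hs0 : IsIntegral Λ (Algebra.norm F y)
  · exact ⟨s, hs, hs0.smul s⟩
  have h := Algebra.isIntegral_norm F hsy
  rw [Algebra.smul_def, map_mul, IsScalarTower.algebraMap_apply Λ F 𝔽,
    Algebra.norm_algebraMap, ← map_pow, ← Algebra.smul_def] at h
  by_cases hn : Module.finrank F 𝔽 = 0
  · exact absurd (by simpa [hn] using h) hs0
  · exact ⟨s ^ Module.finrank F 𝔽, fun hd => hs (hπ.dvd_of_dvd_pow hd), h⟩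

/-- **Unit discriminant ⇒ integral basis** (local form).  If the `F`-basis `c` of `𝔽` consists
of locally integral elements and the inverse of its discriminant is locally integral, then the
coordinates of every locally integral element are locally integral. -/
theorem LocInt.repr_of_discr [FiniteDimensional F 𝔽] (hπ : Prime π)
    {κ : Type*} [Fintype κ] [DecidableEq κ] (c : Basis κ F 𝔽)
    (hc : ∀ j, LocInt π (c j)) (hne : Algebra.discr F c ≠ 0)
    (hd : LocInt π (Algebra.discr F c)⁻¹)
    {y : 𝔽} (hy : LocInt π y) (j : κ) : LocInt π (c.repr y j) := by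
  set T : Matrix κ κ F := Algebra.traceMatrix F c with hT
  have hTmem : ∀ i j, T i j ∈ locSub π hπ F := fun i j => by
    rw [hT, Algebra.traceMatrix_apply, Algebra.traceForm_apply]
    exact mem_locSub.2 ((LocInt.mul hπ (hc i) (hc j)).trace)
  have hv : ∀ i, LocInt π (Algebra.trace F 𝔽 (y * c i)) := fun i =>
    (LocInt.mul hπ hy (hc i)).trace
  have h1 : T.mulVec (c.equivFun y) = fun i => Algebra.trace F 𝔽 (y * c i) :=
    Algebra.traceMatrix_of_basis_mulVec c y
  have h2 : T.adjugate.mulVec (T.mulVec (c.equivFun y)) = T.det • c.equivFun y := by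
    rw [Matrix.mulVec_mulVec, Matrix.adjugate_mul, Matrix.smul_mulVec, Matrix.one_mulVec]
  have hdet : T.det = Algebra.discr F c := (Algebra.discr_def F c).symm
  have h3 : c.repr y j = (Algebra.discr F c)⁻¹ *
      ∑ i, T.adjugate j i * Algebra.trace F 𝔽 (y * c i) := by
    have h4 := congrFun h2 j
    rw [h1, hdet] at h4
    simp only [Matrix.mulVec, dotProduct, Pi.smul_apply, smul_eq_mul, Basis.equivFun_apply]
      at h4
    rw [h4, ← mul_assoc, inv_mul_cancel₀ hne, one_mul]
  rw [h3]
  refine LocInt.mul hπ hd (LocInt.sum hπ _ _ fun i _ => ?_)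
  exact LocInt.mul hπ (mem_locSub.1 (adjugate_mem_of_forall_mem _ T hTmem j i)) (hv i)

end Fields

section FractionField

variable {Λ : Type*} [CommRing Λ] {π : Λ} {K : Type*} [Field K] [Algebra Λ K]

/-- In the fraction field of an integrally closed domain, a locally integral element is a
fraction whose denominator is prime to `π`. -/
theorem LocInt.exists_eq_algebraMap [IsIntegrallyClosed Λ] [IsFractionRing Λ K] {y : K}
    (hy : LocInt π y) : ∃ s a : Λ, ¬ π ∣ s ∧ s • y = algebraMap Λ K a := by
  obtain ⟨s, hs, hsy⟩ := hy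
  obtain ⟨a, ha⟩ := IsIntegrallyClosed.isIntegral_iff.1 hsy
  exact ⟨s, a, hs, ha.symm⟩

theorem LocInt.of_eq_algebraMap {y : K} {s a : Λ} (hs : ¬ π ∣ s)
    (h : s • y = algebraMap Λ K a) : LocInt π y :=
  ⟨s, hs, h ▸ isIntegral_algebraMap⟩

end FractionField

end Fermat.Agent.A2.A3.H492
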