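import Fermat.Agent.A2.A3.H492.Compare
import Fermat.Agent.S18.H393.LocalFree

/-!
# A2 / A3 (δ-count), producer side (helper492): `disc (B' / w) ~ disc (B / w) ^ h`

Top file of the piece **A3-RED**.

Setting: `Λ` noetherian unique factorisation domain (application: `Λ = R[x]`, `R` a DVR with
uniformiser `w`), `K = Frac Λ`, `w ∈ Λ` a prime element with `Λ / w` a PID (`= k[x]`),
`K ⊆ F ⊆ 𝔽` finite separable, `B`, `B'` the integral closures of `Λ` in `F`, `𝔽`;
`P` a model of `Λ / w` and `C`, `C'` models of `B / w B`, `B' / w B'` (`RedData`).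

* `exists_basisMod` : a basis of `B` modulo `w` exists (`S18.H393.exists_basis_mod`).
* `RedData.ofQuotient` : the canonical model `P = Λ / w`, `C = B / w B`.
* `exists_bases_associated_discr` : if `𝔽 / F` is étale at every prime element of `Λ`
  (`EtaleAt`), there are `P`-bases `bC`, `bC'` of the special fibres `C`, `C'` with
  `discr bC' ~ discr bC ^ [𝔽 : F]`, and `discr bC ≠ 0` as soon as a separating family exists.

This is the discriminant input of the δ-count (c3) of `coord/A2.md`:
`δ(B') = [𝔽 : F] · δ(B)` follows by the index formula for the lattices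
`C ⊆ ∏ C / 𝔭` and `C' ⊆ ∏ C' / 𝔮`.
-/

set_option autoImplicit false

namespace Fermat.Agent.A2.A3.H492

open Module

section Exists

variable {Λ K F : Type*} [CommRing Λ] [IsDomain Λ] [IsIntegrallyClosed Λ] [IsNoetherianRing Λ]
  [Field K] [Algebra Λ K] [IsFractionRing Λ K]
  [Field F] [Algebra K F] [Algebra Λ F] [IsScalarTower Λ K F]
  [FiniteDimensional K F] [Algebra.IsSeparable K F]

/-- A basis of the integral closure modulo `w` exists. -/
theorem exists_basisMod {w : Λ} (hw : Prime w) [IsPrincipalIdealRing (Λ ⧸ Ideal.span {w})] :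
    Nonempty (BasisMod Λ K F w (Fin (finrank K F))) := by
  obtain ⟨b, hint, hli, ⟨ρ, hρ, hspan⟩, hindep⟩ :=
    Fermat.Agent.S18.H393.exists_basis_mod (Λ := Λ) K (F := F) hw
  have : Nonempty (Fin (finrank K F)) := ⟨⟨0, Module.finrank_pos⟩⟩
  have hb : ⇑(basisOfLinearIndependentOfCardEqFinrank hli (Fintype.card_fin _)) = b :=
    coe_basisOfLinearIndependentOfCardEqFinrank hli _
  refine ⟨{ basis := basisOfLinearIndependentOfCardEqFinrank hli (Fintype.card_fin _)
            integral := fun i => by rw [hb]; exact hint i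
            ρ := ρ
            hρ := hρ
            span := fun β hβ => ?_
            indep := fun c β hβ h i => ?_ }⟩
  · obtain ⟨c, hc⟩ := hspan β hβ
    refine ⟨c, ?_⟩
    rw [hb, Algebra.smul_def, hc]
    exact Finset.sum_congr rfl fun i _ => (Algebra.smul_def _ _).symm
  · rw [hb] at h
    refine hindep c β hβ ?_ i
    rw [← Algebra.smul_def, ← h]
    exact Finset.sum_congr rfl fun i _ => (Algebra.smul_def _ _).symm

end Exists

section Quotient

variable (Λ F : Type*) [CommRing Λ] [Field F] [Algebra Λ F] (w : Λ)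

/-- The canonical model of the special fibre: `P = Λ / w`, `C = B / w B`. -/
def RedData.ofQuotient : RedData Λ F w (Λ ⧸ Ideal.span {w})
    (integralClosure Λ F ⧸ (Ideal.span {w}).map (algebraMap Λ (integralClosure Λ F))) where
  red := Ideal.Quotient.mk _
  red_surj := Ideal.Quotient.mk_surjective
  red_ker := fun a => by
    rw [Ideal.Quotient.eq_zero_iff_mem, Ideal.mem_span_singleton]
  redB := Ideal.Quotient.mk _
  redB_surj := Ideal.Quotient.mk_surjective
  redB_ker := fun β => by
    rw [Ideal.Quotient.eq_zero_iff_mem, Ideal.map_span, Set.image_singleton,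
      Ideal.mem_span_singleton]
    constructor
    · rintro ⟨γ, hγ⟩
      exact ⟨γ, by rw [hγ, Algebra.smul_def]⟩
    · rintro ⟨γ, hγ⟩
      exact ⟨γ, by rw [hγ, Algebra.smul_def]⟩
  compat := fun a β => by
    rw [Algebra.smul_def, Algebra.smul_def, map_mul]
    rfl

end Quotient

section Main

variable {Λ K F 𝔽 : Type*} [CommRing Λ] [IsDomain Λ] [IsIntegrallyClosed Λ]
  [IsNoetherianRing Λ] [UniqueFactorizationMonoid Λ]
  [Field K] [Algebra Λ K] [IsFractionRing Λ K]
  [Field F] [Algebra K F] [Algebra Λ F] [IsScalarTower Λ K F] [FiniteDimensional K F]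
  [Algebra.IsSeparable K F]
  [Field 𝔽] [Algebra F 𝔽] [Algebra K 𝔽] [Algebra Λ 𝔽] [IsScalarTower K F 𝔽]
  [IsScalarTower Λ K 𝔽] [IsScalarTower Λ F 𝔽] [FiniteDimensional F 𝔽]
  [Algebra.IsSeparable F 𝔽]
  {P C C' : Type*} [CommRing P] [IsDomain P] [CommRing C] [CommRing C'] [Algebra P C]
  [Algebra P C']

/-- **A3-RED.**  If `𝔽 / F` is étale at every prime element of `Λ`, the special fibres
`C = B / w B` and `C' = B' / w B'` are free over `P = Λ / w` of ranks `[F : K]`, `[𝔽 : K]`, with
bases `bC`, `bC'` such that `discr bC' ~ discr bC ^ [𝔽 : F]`.  Moreover `discr bC ≠ 0` as soon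
as some family of `[F : K]` elements of `B` has discriminant `≢ 0` modulo `w`. -/
theorem exists_bases_associated_discr {w : Λ} (hw : Prime w)
    [IsPrincipalIdealRing (Λ ⧸ Ideal.span {w})]
    (D : RedData Λ F w P C) (D' : RedData Λ 𝔽 w P C') (hred : D'.red = D.red)
    (het : ∀ π : Λ, Prime π → EtaleAt π F 𝔽) :
    ∃ (bC : Basis (Fin (finrank K F)) P C) (bC' : Basis (Fin (finrank K 𝔽)) P C'),
      Associated (Algebra.discr P bC') (Algebra.discr P bC ^ finrank F 𝔽) ∧
      (∀ (b₀ : Fin (finrank K F) → F) (d₀ : Λ), (∀ i, IsIntegral Λ (b₀ i)) →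
        algebraMap Λ K d₀ = Algebra.discr K b₀ → ¬ w ∣ d₀ → Algebra.discr P bC ≠ 0) := by
  have : Algebra.IsSeparable K 𝔽 := Algebra.IsSeparable.trans K F 𝔽
  have : FiniteDimensional K 𝔽 := FiniteDimensional.trans K F 𝔽
  obtain ⟨bm⟩ := exists_basisMod (K := K) (F := F) hw
  obtain ⟨bm'⟩ := exists_basisMod (K := K) (F := 𝔽) hw
  exact ⟨D.basis bm, D'.basis bm', associated_discr D D' hred bm bm' het,
    fun b₀ d₀ hb₀ hd₀ hw₀ => D.discr_basis_ne_zero bm b₀ hb₀ d₀ hd₀ hw₀⟩

end Main

end Fermat.Agent.A2.A3.H492
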