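import Fermat.Agent.A2.A3.H492.LocInt

/-!
# A2 / A3 (δ-count), producer side, part 2 (helper492): reduction of the discriminant modulo `w`

Setting: `Λ` integrally closed domain with fraction field `K` (application `Λ = R[x]`), `w ∈ Λ`,
`F / K` a finite extension, `B = integralClosure Λ F`.

* `BasisMod Λ K F w ι` : a `K`-basis `b` of `F` of integral elements which is a basis of `B`
  "modulo `w`": `ρ B ⊆ ∑ Λ bᵢ` for some `ρ ≡ 1 mod w`, and `∑ cᵢ bᵢ ∈ w B ⇒ w ∣ cᵢ`
  (this is the output of `Fermat.Agent.S18.H393.exists_basis_mod`).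
* `RedData Λ F w P C` : a model of the special fibre: surjections `red : Λ → P` with kernel `(w)`
  and `redB : B → C` with kernel `w B`, compatible with the module structures
  (application: `P = k[x]`, `C = B / w B`).
* `RedData.basis` : the images of the `bᵢ` form a `P`-basis of `C`.
* `RedData.trace_redB` : `Tr_{C/P} (redB β) = red (Tr_{F/K} β)`.
* `RedData.discr_basis` : `discr P (basis) = red d` if `d ∈ Λ` is the discriminant of `b`.

Mathlib only.
-/

set_option autoImplicit false

namespace Fermat.Agent.A2.A3.H492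

open Module

/-- A `K`-basis of `F` consisting of integral elements which is a `Λ`-basis of the integral
closure `B` of `Λ` in `F` modulo `w` (and after inverting some `ρ ≡ 1 mod w`). -/
structure BasisMod (Λ K F : Type*) [CommRing Λ] [Field K] [Field F] [Algebra Λ K]
    [Algebra K F] [Algebra Λ F] (w : Λ) (ι : Type*) [Fintype ι] where
  /-- the basis -/
  basis : Basis ι K F
  integral : ∀ i, IsIntegral Λ (basis i)
  /-- the denominator -/
  ρ : Λ
  hρ : w ∣ ρ - 1
  span : ∀ β : F, IsIntegral Λ β → ∃ c : ι → Λ, ρ • β = ∑ i, c i • basis i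
  indep : ∀ (c : ι → Λ) (β : F), IsIntegral Λ β → ∑ i, c i • basis i = w • β → ∀ i, w ∣ c i

/-- A model `C` of the special fibre `B / w B` of `B = integralClosure Λ F`, as an algebra over
a model `P` of `Λ / w`. -/
structure RedData (Λ F : Type*) [CommRing Λ] [Field F] [Algebra Λ F] (w : Λ)
    (P C : Type*) [CommRing P] [CommRing C] [Algebra P C] where
  /-- reduction of the base -/
  red : Λ →+* P
  red_surj : Function.Surjective red
  red_ker : ∀ a, red a = 0 ↔ w ∣ a
  /-- reduction of the integral closure -/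
  redB : integralClosure Λ F →+* C
  redB_surj : Function.Surjective redB
  redB_ker : ∀ β, redB β = 0 ↔ ∃ γ : integralClosure Λ F, β = w • γ
  compat : ∀ (a : Λ) (β : integralClosure Λ F), redB (a • β) = red a • redB β

section

variable {Λ K F : Type*} [CommRing Λ] [Field K] [Field F] [Algebra Λ K]
  [Algebra K F] [Algebra Λ F] {w : Λ} {ι : Type*} [Fintype ι]
  {P C : Type*} [CommRing P] [CommRing C] [Algebra P C]

/-- The elements of the basis, as elements of the integral closure. -/
noncomputable def BasisMod.elt (bm : BasisMod Λ K F w ι) (i : ι) : integralClosure Λ F :=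
  ⟨bm.basis i, bm.integral i⟩

@[simp] theorem BasisMod.coe_elt (bm : BasisMod Λ K F w ι) (i : ι) :
    (bm.elt i : F) = bm.basis i := rfl

theorem RedData.red_ρ (D : RedData Λ F w P C) (bm : BasisMod Λ K F w ι) : D.red bm.ρ = 1 := by
  have h := (D.red_ker (bm.ρ - 1)).2 bm.hρ
  rwa [map_sub, map_one, sub_eq_zero] at h

/-- Expansion of an element of `B` in the basis, up to the denominator `ρ`. -/
theorem BasisMod.exists_smul_eq (bm : BasisMod Λ K F w ι) (β : integralClosure Λ F) :
    ∃ c : ι → Λ, bm.ρ • β = ∑ i, c i • bm.elt i := by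
  obtain ⟨c, hc⟩ := bm.span β β.2
  refine ⟨c, Subtype.ext ?_⟩
  simpa using hc

theorem RedData.redB_eq_sum (D : RedData Λ F w P C) (bm : BasisMod Λ K F w ι)
    (β : integralClosure Λ F) {c : ι → Λ} (hc : bm.ρ • β = ∑ i, c i • bm.elt i) :
    D.redB β = ∑ i, D.red (c i) • D.redB (bm.elt i) := by
  have h := congrArg D.redB hc
  rw [D.compat, D.red_ρ bm, one_smul, map_sum] at h
  rw [h]
  exact Finset.sum_congr rfl fun i _ => D.compat _ _

theorem RedData.linearIndependent (D : RedData Λ F w P C) (bm : BasisMod Λ K F w ι) :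
    LinearIndependent P (fun i => D.redB (bm.elt i)) := by
  rw [Fintype.linearIndependent_iff]
  intro g hg i
  choose c hc using fun i => D.red_surj (g i)
  have h1 : D.redB (∑ i, c i • bm.elt i) = 0 := by
    rw [map_sum, ← hg]
    exact Finset.sum_congr rfl fun i _ => by rw [D.compat, hc]
  obtain ⟨γ, hγ⟩ := (D.redB_ker _).1 h1
  have h2 : ∑ i, c i • bm.basis i = w • (γ : F) := by
    have := congrArg (fun z : integralClosure Λ F => (z : F)) hγ
    simpa using this
  rw [← hc i]
  exact (D.red_ker _).2 (bm.indep c γ γ.2 h2 i)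

theorem RedData.span_eq_top (D : RedData Λ F w P C) (bm : BasisMod Λ K F w ι) :
    ⊤ ≤ Submodule.span P (Set.range fun i => D.redB (bm.elt i)) := by
  rintro y -
  obtain ⟨β, rfl⟩ := D.redB_surj y
  obtain ⟨c, hc⟩ := bm.exists_smul_eq β
  rw [D.redB_eq_sum bm β hc]
  exact Submodule.sum_mem _ fun i _ =>
    Submodule.smul_mem _ _ (Submodule.subset_span ⟨i, rfl⟩)

/-- The reduction of a basis modulo `w` is a basis of the special fibre. -/
noncomputable def RedData.basis (D : RedData Λ F w P C) (bm : BasisMod Λ K F w ι) :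
    Basis ι P C :=
  Basis.mk (D.linearIndependent bm) (D.span_eq_top bm)

@[simp] theorem RedData.basis_apply (D : RedData Λ F w P C) (bm : BasisMod Λ K F w ι) (i : ι) :
    D.basis bm i = D.redB (bm.elt i) := by
  simp [RedData.basis]

theorem RedData.repr_redB (D : RedData Λ F w P C) (bm : BasisMod Λ K F w ι)
    (β : integralClosure Λ F) {c : ι → Λ} (hc : bm.ρ • β = ∑ i, c i • bm.elt i) (i : ι) :
    (D.basis bm).repr (D.redB β) i = D.red (c i) := by
  classical
  rw [D.redB_eq_sum bm β hc]
  simp only [map_sum, map_smul, ← D.basis_apply bm, Basis.repr_self, Finsupp.coe_finsetSum,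
    Finsupp.coe_smul, Finset.sum_apply, Pi.smul_apply, Finsupp.single_apply, smul_eq_mul,
    mul_ite, mul_one, mul_zero, Finset.sum_ite_eq', Finset.mem_univ, if_true]

end

section Trace

variable {Λ K F : Type*} [CommRing Λ] [IsDomain Λ] [Field K] [Field F] [Algebra Λ K]
  [IsFractionRing Λ K] [Algebra K F] [Algebra Λ F] [IsScalarTower Λ K F]
  {w : Λ} {ι : Type*} [Fintype ι]
  {P C : Type*} [CommRing P] [CommRing C] [Algebra P C]

omit [IsDomain Λ] [IsFractionRing Λ K] in
theorem BasisMod.repr_eq (bm : BasisMod Λ K F w ι)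
    (β : integralClosure Λ F) {c : ι → Λ} (hc : bm.ρ • β = ∑ i, c i • bm.elt i) (i : ι) :
    algebraMap Λ K bm.ρ * bm.basis.repr (β : F) i = algebraMap Λ K (c i) := by
  classical
  have h := congrArg (fun z : integralClosure Λ F => (z : F)) hc
  simp only [Subalgebra.coe_smul, AddSubmonoidClass.coe_finsetSum, BasisMod.coe_elt] at h
  have h' : (algebraMap Λ K bm.ρ) • (β : F) = ∑ i, (algebraMap Λ K (c i)) • bm.basis i := by
    rw [algebraMap_smul, h]
    exact Finset.sum_congr rfl fun i _ => (algebraMap_smul K _ _).symm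
  have h2 : bm.basis.repr ((algebraMap Λ K bm.ρ) • (β : F)) i =
      bm.basis.repr (∑ i, (algebraMap Λ K (c i)) • bm.basis i) i :=
    congrArg (fun z => bm.basis.repr z i) h'
  rw [map_smul, Finsupp.smul_apply, smul_eq_mul] at h2
  rw [h2, map_sum, Finsupp.coe_finsetSum, Finset.sum_apply]
  rw [Finset.sum_eq_single i]
  · rw [map_smul, Finsupp.smul_apply, Basis.repr_self,
      Finsupp.single_eq_same, smul_eq_mul, mul_one]
  · intro j _ hj
    rw [map_smul, Finsupp.smul_apply, Basis.repr_self,
      Finsupp.single_eq_of_ne hj.symm, smul_zero]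
  · intro h
    exact absurd (Finset.mem_univ i) h

/-- **The trace reduces modulo `w`.** -/
theorem RedData.trace_redB (D : RedData Λ F w P C) (bm : BasisMod Λ K F w ι)
    (β : integralClosure Λ F) (t : Λ) (ht : algebraMap Λ K t = Algebra.trace K F (β : F)) :
    Algebra.trace P C (D.redB β) = D.red t := by
  classical
  choose c hc using fun i => bm.exists_smul_eq (β * bm.elt i)
  -- the trace over `K`
  have hK : algebraMap Λ K bm.ρ * Algebra.trace K F (β : F) = algebraMap Λ K (∑ i, c i i) := by
    rw [Algebra.trace_eq_matrix_trace bm.basis, Matrix.trace, Finset.mul_sum, map_sum]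
    refine Finset.sum_congr rfl fun i _ => ?_
    rw [Matrix.diag_apply, Algebra.leftMulMatrix_eq_repr_mul]
    exact bm.repr_eq (β * bm.elt i) (hc i) i
  have hΛ : bm.ρ * t = ∑ i, c i i := by
    apply IsFractionRing.injective Λ K
    rw [← hK, ← ht, map_mul]
  -- the trace over `P`
  rw [Algebra.trace_eq_matrix_trace (D.basis bm), Matrix.trace]
  have hP : ∀ i, Matrix.diag (Algebra.leftMulMatrix (D.basis bm) (D.redB β)) i
      = D.red (c i i) := fun i => by
    rw [Matrix.diag_apply, Algebra.leftMulMatrix_eq_repr_mul, D.basis_apply, ← map_mul]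
    exact D.repr_redB bm _ (hc i) i
  rw [Finset.sum_congr rfl fun i _ => hP i, ← map_sum, ← hΛ, map_mul, D.red_ρ bm, one_mul]

/-- **The discriminant reduces modulo `w`.** -/
theorem RedData.discr_basis [DecidableEq ι] [IsIntegrallyClosed Λ] [FiniteDimensional K F]
    (D : RedData Λ F w P C) (bm : BasisMod Λ K F w ι)
    (d : Λ) (hd : algebraMap Λ K d = Algebra.discr K bm.basis) :
    Algebra.discr P (D.basis bm) = D.red d := by
  have hex : ∀ i j, ∃ t : Λ, algebraMap Λ K t = Algebra.trace K F (bm.basis i * bm.basis j) :=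
    fun i j => IsIntegrallyClosed.isIntegral_iff.1
      (Algebra.isIntegral_trace ((bm.integral i).mul (bm.integral j)))
  choose t ht using hex
  have h1 : Algebra.traceMatrix P (D.basis bm) = D.red.mapMatrix (Matrix.of t) := by
    ext i j
    rw [Algebra.traceMatrix_apply, Algebra.traceForm_apply, D.basis_apply, D.basis_apply,
      ← map_mul]
    exact D.trace_redB bm (bm.elt i * bm.elt j) (t i j) (ht i j)
  have h2 : Algebra.traceMatrix K bm.basis = (algebraMap Λ K).mapMatrix (Matrix.of t) := by
    ext i j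
    rw [Algebra.traceMatrix_apply, Algebra.traceForm_apply]
    exact (ht i j).symm
  have h3 : d = (Matrix.of t).det := by
    apply IsFractionRing.injective Λ K
    rw [hd, Algebra.discr_def, h2, ← RingHom.map_det]
  rw [Algebra.discr_def, h1, ← RingHom.map_det, h3]

end Trace

end Fermat.Agent.A2.A3.H492
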