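import Fermat.Agent.A2.A3.H492.Red
import Fermat.Agent.A2.A3.H492.Etale

/-!
# A2 / A3 (δ-count), producer side (helper492): the discriminant relation for Kummer covers

`exists_bases_associated_discr_of_kummer` = `exists_bases_associated_discr` (A3-RED) with the
hypothesis `EtaleAt` discharged for Kummer covers by `etaleAt_of_kummer` (adapter to helper69's
`H69.exists_basis_isIntUnit_discr_of_divisible`).

Hypothesis on the Kummer generators `G ∈ s`, `G ^ m = g ∈ F`: for every prime element `π` of `Λ`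
and every discrete valuation subring `V` of `F` lying over `Λ_(π)` (`Λ ⊆ V`, elements prime to
`π` invertible in `V`), `g` is a unit of `V` times an `m`-th power.  For `Λ = R[x]`:
`π = w` gives the two Gauss valuations `V₁`, `V₂` (Step I: `g` is a unit there), the other `π`
give valuation rings containing `E = Frac R` (`DivisibleDiv`).
-/

set_option autoImplicit false

namespace Fermat.Agent.A2.A3.H492

open Module

universe u

variable {Λ K : Type*} {F 𝔽 : Type u} [CommRing Λ] [IsDomain Λ] [IsIntegrallyClosed Λ]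
  [IsNoetherianRing Λ] [UniqueFactorizationMonoid Λ]
  [Field K] [Algebra Λ K] [IsFractionRing Λ K] [CharZero K]
  [Field F] [Algebra K F] [Algebra Λ F] [IsScalarTower Λ K F] [FiniteDimensional K F]
  [Field 𝔽] [Algebra F 𝔽] [Algebra K 𝔽] [Algebra Λ 𝔽] [IsScalarTower K F 𝔽]
  [IsScalarTower Λ K 𝔽] [IsScalarTower Λ F 𝔽] [FiniteDimensional F 𝔽]
  {P C C' : Type*} [CommRing P] [IsDomain P] [CommRing C] [CommRing C'] [Algebra P C]
  [Algebra P C']

/-- **A3-RED for Kummer covers.**  The special fibres `C = B / w B`, `C' = B' / w B'` of the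
integral closures of `Λ` in `F` and in the Kummer cover `𝔽 = F(s)` are free over `P = Λ / w`
with bases `bC`, `bC'` such that `discr bC' ~ discr bC ^ [𝔽 : F]`; and `discr bC ≠ 0` if a
separating family exists. -/
theorem exists_bases_associated_discr_of_kummer {w : Λ} (hw : Prime w)
    [IsPrincipalIdealRing (Λ ⧸ Ideal.span {w})]
    (D : RedData Λ F w P C) (D' : RedData Λ 𝔽 w P C') (hred : D'.red = D.red)
    (m : ℕ) (hm : IsUnit (m : Λ))
    (s : Set 𝔽) (hs : IntermediateField.adjoin F s = ⊤)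
    (hG : ∀ G ∈ s, G ≠ 0 ∧ ∃ g : F, algebraMap F 𝔽 g = G ^ m ∧
      ∀ π : Λ, Prime π → ∀ V : ValuationSubring F, IsDiscreteValuationRing V →
        (∀ a : Λ, algebraMap Λ F a ∈ V) →
        (∀ a : Λ, ¬ π ∣ a → (algebraMap Λ F a)⁻¹ ∈ V) →
        ∃ h u : F, h ≠ 0 ∧ u ∈ V ∧ u⁻¹ ∈ V ∧ g = u * h ^ m) :
    ∃ (bC : Basis (Fin (finrank K F)) P C) (bC' : Basis (Fin (finrank K 𝔽)) P C'),
      Associated (Algebra.discr P bC') (Algebra.discr P bC ^ finrank F 𝔽) ∧
      (∀ (b₀ : Fin (finrank K F) → F) (d₀ : Λ), (∀ i, IsIntegral Λ (b₀ i)) →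
        algebraMap Λ K d₀ = Algebra.discr K b₀ → ¬ w ∣ d₀ → Algebra.discr P bC ≠ 0) := by
  have hsepF : Algebra.IsSeparable K F := Algebra.IsSeparable.of_integral K F
  have : CharZero F := charZero_of_injective_algebraMap (algebraMap K F).injective
  have hsep𝔽 : Algebra.IsSeparable F 𝔽 := Algebra.IsSeparable.of_integral F 𝔽
  refine exists_bases_associated_discr (K := K) hw D D' hred fun π hπ => ?_
  refine etaleAt_of_kummer (K := K) hπ m (fun hd => hπ.not_isUnit (isUnit_of_dvd_unit hd hm)) s hs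
    fun G hGs => ?_
  obtain ⟨hG0, g, hg, hdiv⟩ := hG G hGs
  exact ⟨hG0, g, hg, fun V hV h1 h2 => hdiv π hπ V hV h1 h2⟩

end Fermat.Agent.A2.A3.H492
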